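import Fermat.Agent.S18.Defs
import Fermat.Agent.S28.QRed.Core
import Fermat.Agent.S28.ANDef
import Fermat.Agent.S28.Tensor

/-!
# S18, package RED (p = 4): definitions  (FROZEN interface file, sorry-free; import it, do not edit)

Level `N`, prime `ℓ`.  `F_N = modularFunctionFieldFull N ⊆ ℚ((q))`.

* `redFin / redInf / redMid` : the reductions mod `ℓ` of the three integral charts
  (`chartAlgFin N ℓ` etc. of the Prelude) into `𝔽_ℓ((q))` (the maps of the landed S28 tree).
* `OQ N ℓ`  : the Gauss valuation ring of `F_N` at `ℓ` (`q`-expansion in the DVR `QRed.Vring ℓ`),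
  `redO`   : its reduction map to `𝔽_ℓ((q))`.
* `KjC K`  : the subfield `K(j) ⊆ K((q))`;  `psiIdx N = [SL₂(ℤ) : Γ₀(N)]`.
* `FieldAN N K'` : the conjugate `t`-expansions (`t = q^(1/N)`) of `y` and of the `j(q^d)` over a
  field `K'` (the landed `S28.ANData` pushed to a field, plus: conjugates of `j(q^N)` pairwise
  distinct, characteristic polynomials of the `j(q^d)`, cardinality of the index set).
-/

set_option autoImplicit false

noncomputable section

namespace Fermat.Agent.S18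

open ModularCurve ModularCurve.IgusaScheme Polynomial

section Charts

variable (N : ℕ) [NeZero N] (ℓ : ℕ) [Fact ℓ.Prime]

/-- Reduction mod `ℓ` of the chart `j ≠ ∞` (coefficientwise reduction of `q`-expansions). -/
def redFin : chartAlgFin N ℓ →+* LaurentSeries (ZMod ℓ) :=
  Fermat.Agent.S28.QRed.redChart N ℓ {jFull N}
    (by rintro s rfl; exact Fermat.Agent.S28.QRed.jFull_mem_Vring N ℓ)

/-- Reduction mod `ℓ` of the chart `j ≠ 0`. -/
def redInf : chartAlgInf N ℓ →+* LaurentSeries (ZMod ℓ) :=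
  Fermat.Agent.S28.QRed.redChart N ℓ {(jFull N)⁻¹}
    (by rintro s rfl; exact Fermat.Agent.S28.QRed.jFull_inv_mem_Vring N ℓ)

/-- Reduction mod `ℓ` of the overlap chart. -/
def redMid : chartAlgMid N ℓ →+* LaurentSeries (ZMod ℓ) :=
  Fermat.Agent.S28.QRed.redChart N ℓ {jFull N, (jFull N)⁻¹} (by
    rintro s (rfl | rfl)
    · exact Fermat.Agent.S28.QRed.jFull_mem_Vring N ℓ
    · exact Fermat.Agent.S28.QRed.jFull_inv_mem_Vring N ℓ)

/-- The Gauss valuation ring of `F_N` at `ℓ`: functions whose `q`-expansion lies in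
`QRed.Vring ℓ` (= fractions `a/b` with `a, b ∈ ℤ_(ℓ)((q))`, `b ≢ 0 mod ℓ`). -/
def OQ : Subring ↥(modularFunctionFieldFull N) :=
  (Fermat.Agent.S28.QRed.Vring ℓ).comap (Fermat.Agent.S28.QRed.valF N)

theorem mem_OQ (x : ↥(modularFunctionFieldFull N)) :
    x ∈ OQ N ℓ ↔ Fermat.Agent.S28.QRed.valF N x ∈ Fermat.Agent.S28.QRed.Vring ℓ := Iff.rfl

/-- The inclusion of `OQ` into the DVR `Vring ℓ`. -/
def OQtoV : OQ N ℓ →+* Fermat.Agent.S28.QRed.Vring ℓ :=
  RingHom.codRestrict ((Fermat.Agent.S28.QRed.valF N).comp (OQ N ℓ).subtype)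
    (Fermat.Agent.S28.QRed.Vring ℓ) (fun x => x.2)

/-- Reduction mod `ℓ` on the Gauss valuation ring of `F_N`. -/
def redO : OQ N ℓ →+* LaurentSeries (ZMod ℓ) :=
  (Fermat.Agent.S28.QRed.redV ℓ).comp (OQtoV N ℓ)

end Charts

section Fields

/-- `K(j) ⊆ K((q))`. -/
def KjC (K : Type*) [Field K] : IntermediateField K (LaurentSeries K) :=
  IntermediateField.adjoin K {jqModC K}

/-- The index `[SL₂(ℤ) : Γ₀(N)] = ψ(N)`. -/
def psiIdx (N : ℕ) : ℕ := (CongruenceSubgroup.Gamma0 N).index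

/-- The conjugate expansions over a field `K'` (in the variable `t = q^(1/N)`):
`Y u`, `J u d` are the `t`-expansions of the translates of `y` and of `j(q^d)` under
`Γ₀(N) \ SL₂(ℤ)`, with coefficients pushed to `K'`. -/
structure FieldAN (N : ℕ) [NeZero N] (K' : Type*) [Field K'] where
  /-- index set `Γ₀(N) \ SL₂(ℤ)` -/
  ι : Type
  [fintype : Fintype ι]
  [decEq : DecidableEq ι]
  /-- the trivial coset -/
  u₀ : ι
  /-- conjugates of `y` -/
  Y : ι → (LaurentSeries K')ˣ
  /-- conjugates of `j(q^d)` -/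
  J : ι → ℕ → LaurentSeries K'
  card_eq : Fintype.card ι = psiIdx N
  base_Y : (Y u₀ : LaurentSeries K') = qExpand K' N (Fermat.Agent.S28.yUnit K' N)
  base_J : ∀ (d : ℕ) [NeZero d], d ∣ N → J u₀ d = qExpand K' N (qExpand K' d (jqModC K'))
  /-- `∏_u (X - Y_u) ∈ K'[j][X]` -/
  charpoly_Y : ∏ u : ι, (X - C (Y u : LaurentSeries K')) ∈
    Polynomial.lifts ((Polynomial.aeval (R := K') (Fermat.Agent.S28.jt K' N)).toRingHom)
  /-- `∏_u (X - Y_u⁻¹) ∈ K'[j][X]` -/
  charpoly_Yinv : ∏ u : ι, (X - C (((Y u)⁻¹ : (LaurentSeries K')ˣ) : LaurentSeries K')) ∈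
    Polynomial.lifts ((Polynomial.aeval (R := K') (Fermat.Agent.S28.jt K' N)).toRingHom)
  /-- Lagrange sums `Σ_u J_{d,u} ∏_{u' ≠ u} (X - Y_u') ∈ K'[j][X]` -/
  lagrange : ∀ (d : ℕ), d ∣ N →
    ∑ u : ι, C (J u d) * ∏ u' ∈ Finset.univ.erase u, (X - C (Y u' : LaurentSeries K')) ∈
      Polynomial.lifts ((Polynomial.aeval (R := K') (Fermat.Agent.S28.jt K' N)).toRingHom)
  /-- `∏_u (X - J_{d,u}) ∈ K'[j][X]` -/
  charpoly_J : ∀ (d : ℕ), d ∣ N → ∏ u : ι, (X - C (J u d)) ∈
    Polynomial.lifts ((Polynomial.aeval (R := K') (Fermat.Agent.S28.jt K' N)).toRingHom)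
  /-- every translate of `y` except the trivial one has `t`-order exactly `-N φ(N)` -/
  order_Y : ∀ u, u ≠ u₀ → (Y u : LaurentSeries K').order = -((N : ℤ) * (N.totient : ℤ))
  /-- the conjugates of `j(q^N)` are pairwise distinct (this is where `char K' ∤ N` is used) -/
  sep_J : ∀ u u', u ≠ u' → J u N ≠ J u' N

attribute [instance] FieldAN.fintype FieldAN.decEq

end Fields

section Gauss

variable {L : Type*} [Field L] (A : ValuationSubring L)

/-- `IsRedOf A x w`: the Laurent series `w ∈ k((q))` is the *Gauss reduction* of `x ∈ L((q))`, i.e.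
`x = y₁ / y₂` and `w = ȳ₁ / ȳ₂` for series `y₁, y₂ ∈ A((q))` with `ȳ₂ ≠ 0`.
(`x` lies in the Gauss valuation ring of `L((q))`-fractions and `w` is its residue class.) -/
def IsRedOf (x : LaurentSeries L) (w : LaurentSeries (IsLocalRing.ResidueField A)) : Prop :=
  ∃ y₁ y₂ : LaurentSeries A, coeffMap (IsLocalRing.residue A) y₂ ≠ 0 ∧
    x * coeffMap A.subtype y₂ = coeffMap A.subtype y₁ ∧
    w * coeffMap (IsLocalRing.residue A) y₂ = coeffMap (IsLocalRing.residue A) y₁

end Gauss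

section Conj

/-- The comparison map `f(q) ↦ f(t^N)` with coefficients pushed from `K` to `K'`. -/
def toT (N : ℕ) [NeZero N] (K K' : Type*) [Field K] [Field K'] [Algebra K K'] :
    LaurentSeries K →+* LaurentSeries K' :=
  (qExpand K' N).comp (coeffMap (algebraMap K K'))

end Conj

end Fermat.Agent.S18
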