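import Fermat.Agent.S18.RED.Defs
import Fermat.Agent.S18.RED262.P0a

/-!
# S18 / RED, piece 0 (SAT): the three reductions are saturated; the Gauss ring `OQ`

Everything here follows from the landed S28 tree (`QRed.key_fin`, `QRed.key_inf`, `QRed.ker_redChart`,
`QRed.interface_of_yUnit`, `exists_ANData`, `isIntegral_yUnit`, `linearIndependent_red_yUnit`,
`span_of_ANData`, `QRed.key_induction`, `QRed.redV_eq_zero`, Prelude `isLocalization_away_inclFin`).
Proofs: helper262 (helper file `Fermat/Agent/S18/RED262/P0a.lean`).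
-/

set_option autoImplicit false

noncomputable section

namespace Fermat.Agent.S18

open ModularCurve ModularCurve.IgusaScheme Polynomial

variable (N : ℕ) [NeZero N] (ℓ : ℕ) [Fact ℓ.Prime]

/-- (*) for the chart `j ≠ ∞`. -/
theorem ker_redFin (hℓN : ¬ ℓ ∣ N) :
    RingHom.ker (redFin N ℓ) = Ideal.span {(ℓ : chartAlgFin N ℓ)} := by
  obtain ⟨n, H⟩ := RED262.exists_interface N ℓ hℓN
  exact Fermat.Agent.S28.QRed.ker_redChart N ℓ _ _
    (fun z hzV hz => Fermat.Agent.S28.QRed.key_fin N ℓ H z hzV hz)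

/-- (*) for the chart `j ≠ 0`. -/
theorem ker_redInf (hℓN : ¬ ℓ ∣ N) :
    RingHom.ker (redInf N ℓ) = Ideal.span {(ℓ : chartAlgInf N ℓ)} := by
  obtain ⟨n, H⟩ := RED262.exists_interface N ℓ hℓN
  exact Fermat.Agent.S28.QRed.ker_redChart N ℓ _ _
    (fun z hzV hz => Fermat.Agent.S28.QRed.key_inf N ℓ H z hzV hz)

/-- (*) for the overlap (`A_mid = A_fin[1/j]`). -/
theorem ker_redMid (hℓN : ¬ ℓ ∣ N) :
    RingHom.ker (redMid N ℓ) = Ideal.span {(ℓ : chartAlgMid N ℓ)} :=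
  Fermat.Agent.S28.QRed.ker_redChart N ℓ _ _
    (fun z hzV hz => RED262.key_mid N ℓ hℓN z hzV hz)

theorem redMid_inclFin (x : chartAlgFin N ℓ) : redMid N ℓ (inclFin N ℓ x) = redFin N ℓ x := by
  rw [redMid, redFin, Fermat.Agent.S28.QRed.redChart, Fermat.Agent.S28.QRed.redChart,
    RingHom.comp_apply, RingHom.comp_apply]
  refine congrArg (Fermat.Agent.S28.QRed.redV ℓ) (Subtype.ext ?_)
  rw [Fermat.Agent.S28.QRed.coe_toV, Fermat.Agent.S28.QRed.coe_toV, inclFin, coe_chartIncl]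

theorem redMid_inclInf (x : chartAlgInf N ℓ) : redMid N ℓ (inclInf N ℓ x) = redInf N ℓ x := by
  rw [redMid, redInf, Fermat.Agent.S28.QRed.redChart, Fermat.Agent.S28.QRed.redChart,
    RingHom.comp_apply, RingHom.comp_apply]
  refine congrArg (Fermat.Agent.S28.QRed.redV ℓ) (Subtype.ext ?_)
  rw [Fermat.Agent.S28.QRed.coe_toV, Fermat.Agent.S28.QRed.coe_toV, inclInf, coe_chartIncl]

/-- the three charts lie in the Gauss ring -/
theorem chartAlgMid_le_OQ (x : ↥(modularFunctionFieldFull N)) (hx : x ∈ chartAlgMid N ℓ) :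
    x ∈ OQ N ℓ :=
  RED262.mid_mem_Vring N ℓ x hx

theorem redO_eq_redMid (x : ↥(modularFunctionFieldFull N)) (hx : x ∈ chartAlgMid N ℓ) :
    redO N ℓ ⟨x, chartAlgMid_le_OQ N ℓ x hx⟩ = redMid N ℓ ⟨x, hx⟩ :=
  rfl

/-- the kernel of the reduction on the Gauss ring is `(ℓ)` (no hypothesis on `ℓ`) -/
theorem ker_redO : RingHom.ker (redO N ℓ) = Ideal.span {(ℓ : OQ N ℓ)} := by
  apply le_antisymm
  · intro x hx
    obtain ⟨z', hz'⟩ := RED262.ker_redO_aux N ℓ x (RingHom.mem_ker.mp hx)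
    rw [Ideal.mem_span_singleton']
    exact ⟨z', by rw [hz', mul_comm]⟩
  · rw [Ideal.span_le, Set.singleton_subset_iff, SetLike.mem_coe, RingHom.mem_ker]
    exact RED262.redO_natCast_self N ℓ

/-- `OQ` is a valuation ring of `F_N`: an element with nonzero reduction is a unit -/
theorem inv_mem_OQ (x : ↥(modularFunctionFieldFull N)) (hx : x ∈ OQ N ℓ)
    (h : redO N ℓ ⟨x, hx⟩ ≠ 0) : x⁻¹ ∈ OQ N ℓ := by
  rw [mem_OQ, map_inv₀]
  exact RED262.inv_mem_Vring ℓ _ hx h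

/-- every nonzero element of `F_N` is `ℓ^k` times a unit of `OQ` -/
theorem exists_zpow_mul_unit_OQ (x : ↥(modularFunctionFieldFull N)) (hx : x ≠ 0) :
    ∃ (k : ℤ) (u : ↥(modularFunctionFieldFull N)) (hu : u ∈ OQ N ℓ),
      redO N ℓ ⟨u, hu⟩ ≠ 0 ∧ x = (ℓ : ↥(modularFunctionFieldFull N)) ^ k * u :=
  RED262.exists_zpow_mul_unit N ℓ x hx

/-- saturation of the chart `j ≠ ∞` in the Gauss ring -/
theorem mem_chartAlgFin_of_mul (hℓN : ¬ ℓ ∣ N) (z : ↥(modularFunctionFieldFull N))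
    (hz : z ∈ OQ N ℓ) (h : (ℓ : ↥(modularFunctionFieldFull N)) * z ∈ chartAlgFin N ℓ) :
    z ∈ chartAlgFin N ℓ := by
  obtain ⟨n, H⟩ := RED262.exists_interface N ℓ hℓN
  exact Fermat.Agent.S28.QRed.key_fin N ℓ H z hz h

/-- saturation of the chart `j ≠ 0` in the Gauss ring -/
theorem mem_chartAlgInf_of_mul (hℓN : ¬ ℓ ∣ N) (z : ↥(modularFunctionFieldFull N))
    (hz : z ∈ OQ N ℓ) (h : (ℓ : ↥(modularFunctionFieldFull N)) * z ∈ chartAlgInf N ℓ) :
    z ∈ chartAlgInf N ℓ := by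
  obtain ⟨n, H⟩ := RED262.exists_interface N ℓ hℓN
  exact Fermat.Agent.S28.QRed.key_inf N ℓ H z hz h

/-- `OQ` is the localisation of the chart `j ≠ ∞` at the prime `(ℓ)` -/
theorem exists_frac_chartFin (hℓN : ¬ ℓ ∣ N) (z : ↥(modularFunctionFieldFull N)) (hz : z ∈ OQ N ℓ) :
    ∃ a b : chartAlgFin N ℓ, redFin N ℓ b ≠ 0 ∧
      z * (b : ↥(modularFunctionFieldFull N)) = (a : ↥(modularFunctionFieldFull N)) :=
  RED262.exists_frac_fin N ℓ hℓN z hz

/-- The key relation, reduced mod `ℓ`: the reduction of an element of the Gauss ring is a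
`𝔽_ℓ(j)`-combination of powers of the reduced eta-quotient unit. -/
theorem exists_red_rel (hℓN : ¬ ℓ ∣ N) (z : OQ N ℓ) :
    ∃ (n : ℕ) (d : (ZMod ℓ)[X]) (a : Fin n → (ZMod ℓ)[X]), d ≠ 0 ∧
      redO N ℓ z * aeval (jqModC (ZMod ℓ)) d =
        ∑ i, aeval (jqModC (ZMod ℓ)) (a i) *
          (Fermat.Agent.S28.yUnit (ZMod ℓ) N : LaurentSeries (ZMod ℓ)) ^ (i : ℕ) :=
  RED262.exists_red_rel' N ℓ hℓN z

end Fermat.Agent.S18
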