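import Fermat.Agent.S18.RED.Defs
import Fermat.Agent.S28.AN.Assemble
import Fermat.Agent.S28.RedIndep
import Fermat.Agent.S18.RED6106.ANSep

/-!
# S18 / RED, piece 1 (ANSEP): conjugate expansions over a field, with separation of the `j(q^N)`

Over `RN N = ℤ[ζ_N, 1/N]` the landed S28 tree gives `Ycusp N γ`, `Jcusp N γ d`
(`Fermat/Agent/S28/AN/Defs.lean`, `AN/Cusp.lean`, `AN/Assemble.lean`).  New facts to prove here:
* `∏_u (X - J_{u,d}) ∈ RN[j][X]` (same invariance argument as `charpoly_Y` in `exists_ANData`);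
* for cosets `u ≠ u'` the leading coefficient of `Jcusp N (rep u) N - Jcusp N (rep u') N` is a unit of
  `RN N`:  `Jcusp N γ N = j(ζ_δ^b t^(a²))` with `a = gcd(N, z)`, `δ = N / a`, `(z/a) b ≡ w (mod δ)` for
  `γ = [x y; z w]`; the pair `(a, b mod δ)` determines the coset `Γ₀(N) γ`; leading term
  `ζ_δ^(-b) t^(-a²)`; `1 - ζ_δ^c` divides `δ`, a unit of `RN N`, for `c ≢ 0 (mod δ)`;
* a ring hom `RN N →+* AlgebraicClosure K` whenever `(N : K) ≠ 0`
  (char 0: `RN N` is algebraic over `ℚ`, `IsAlgClosed.lift`; char `ℓ`: `RedIndep.exists_residue`,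
  the residue field is algebraic over `𝔽_ℓ`).

Proof (helper6106): helper file `Fermat/Agent/S18/RED6106/ANSep.lean`.
-/

set_option autoImplicit false

noncomputable section

namespace Fermat.Agent.S18

open ModularCurve Polynomial

/-- **Piece 1.**  Conjugate expansions over the algebraic closure of any field in which `N ≠ 0`. -/
theorem exists_fieldAN (N : ℕ) [NeZero N] (K : Type) [Field K] (hN : (N : K) ≠ 0) :
    Nonempty (FieldAN N (AlgebraicClosure K)) := by
  classical
  have hN' : (N : AlgebraicClosure K) ≠ 0 := by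
    intro h
    apply hN
    apply (algebraMap K (AlgebraicClosure K)).injective
    rw [map_natCast, map_zero, h]
  obtain ⟨φ⟩ := RED6106.exists_hom N (AlgebraicClosure K) hN'
  let ι : Type := Matrix.SpecialLinearGroup (Fin 2) ℤ ⧸ CongruenceSubgroup.Gamma0 N
  haveI : Finite ι := Subgroup.finite_quotient_of_finiteIndex
  letI : Fintype ι := Fintype.ofFinite ι
  let rep : ι → Matrix.SpecialLinearGroup (Fin 2) ℤ := Fermat.Agent.S28.cosetRep N
  let u₀ : ι := QuotientGroup.mk 1
  have hrep₀ : rep u₀ ∈ CongruenceSubgroup.Gamma0 N := by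
    have h1 : (QuotientGroup.mk (Quotient.out u₀) :
        Matrix.SpecialLinearGroup (Fin 2) ℤ ⧸ CongruenceSubgroup.Gamma0 N) = QuotientGroup.mk 1 :=
      QuotientGroup.out_eq' u₀
    have h2 := QuotientGroup.eq.mp h1
    simpa [rep, Fermat.Agent.S28.cosetRep] using h2
  have hrep : ∀ u : ι, u ≠ u₀ → rep u ∉ CongruenceSubgroup.Gamma0 N := by
    intro u hu hmem
    apply hu
    rw [← QuotientGroup.out_eq' u]
    refine QuotientGroup.eq.mpr ?_
    simpa [rep, Fermat.Agent.S28.cosetRep] using hmem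
  refine ⟨{
    ι := ι
    u₀ := u₀
    Y := fun u => Units.map
      (coeffMap φ : LaurentSeries (Fermat.Agent.S28.RN N) →* LaurentSeries (AlgebraicClosure K))
      (Fermat.Agent.S28.Ycusp N (rep u))
    J := fun u d => coeffMap φ (Fermat.Agent.S28.Jcusp N (rep u) d)
    card_eq := ?_
    base_Y := ?_
    base_J := ?_
    charpoly_Y := ?_
    charpoly_Yinv := ?_
    lagrange := ?_
    charpoly_J := ?_
    order_Y := ?_
    sep_J := ?_ }⟩
  · -- card_eq
    rw [psiIdx, Subgroup.index]
    exact Nat.card_eq_fintype_card.symm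
  · -- base_Y
    rw [Units.coe_map]
    show coeffMap φ (Fermat.Agent.S28.Ycusp N (rep u₀) :
      LaurentSeries (Fermat.Agent.S28.RN N)) = _
    rw [Fermat.Agent.S28.Ycusp_base N (rep u₀) (Fermat.Agent.S28.dvd_of_mem_Gamma0 N hrep₀),
      coeffMap_qExpand, Fermat.Agent.S28.RedIndep.coeffMap_yUnit]
  · -- base_J
    intro d _ hd
    show coeffMap φ (Fermat.Agent.S28.Jcusp N (rep u₀) d) = _
    rw [Fermat.Agent.S28.Jcusp_base N (rep u₀) (Fermat.Agent.S28.dvd_of_mem_Gamma0 N hrep₀) d hd,
      coeffMap_qExpand, coeffMap_qExpand, coeffMap_jqModC]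
  · -- charpoly_Y
    have h1 := Fermat.Agent.S28.RedIndep.map_mem_lifts φ N _ (RED6106.charpoly_Y_RN N)
    rw [Polynomial.map_prod] at h1
    simp only [Polynomial.map_sub, Polynomial.map_X, Polynomial.map_C] at h1
    exact h1
  · -- charpoly_Yinv
    have h1 := Fermat.Agent.S28.RedIndep.map_mem_lifts φ N _ (RED6106.charpoly_Yinv_RN N)
    rw [Polynomial.map_prod] at h1
    simp only [Polynomial.map_sub, Polynomial.map_X, Polynomial.map_C] at h1
    simp only [← map_inv]
    exact h1
  · -- lagrange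
    intro d hd
    have h1 := Fermat.Agent.S28.RedIndep.map_mem_lifts φ N _ (RED6106.lagrange_RN N d hd)
    rw [Polynomial.map_sum] at h1
    simp only [Polynomial.map_mul, Polynomial.map_prod, Polynomial.map_sub, Polynomial.map_X,
      Polynomial.map_C] at h1
    exact h1
  · -- charpoly_J
    intro d hd
    have h1 := Fermat.Agent.S28.RedIndep.map_mem_lifts φ N _ (RED6106.charpoly_J_RN N d hd)
    rw [Polynomial.map_prod] at h1
    simp only [Polynomial.map_sub, Polynomial.map_X, Polynomial.map_C] at h1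
    exact h1
  · -- order_Y
    intro u hu
    obtain ⟨h1, h2⟩ := Fermat.Agent.S28.Ycusp_order N (rep u)
      (fun h => hrep u hu (Fermat.Agent.S28.mem_Gamma0_of_dvd N h))
    rw [Units.coe_map]
    show (coeffMap φ (Fermat.Agent.S28.Ycusp N (rep u) :
      LaurentSeries (Fermat.Agent.S28.RN N))).order = _
    rw [Fermat.Agent.S28.RedIndep.order_coeffMap_of_isUnit φ _ h2, h1]
  · -- sep_J
    intro u u' huu' h
    exact huu' (RED6106.sep_J_map N φ hN' u u' h)

end Fermat.Agent.S18
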