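import Fermat.Agent.S18.RED.Defs
import Fermat.Agent.S28.IrrCore
import Fermat.Agent.S18.RED2069.P2Emb

/-!
# S18 / RED, piece 2 (DEGY): the field `K(j)(y) ⊆ K((q))` and its conjugate embeddings

Input: conjugate expansions `D : FieldAN N K'` over an extension `K'` of `K` (abstract; no
hypothesis on the characteristic is needed here, it is hidden in `D.sep_J`, which this piece does
not use).  Tools: landed `Fermat.Agent.S28.laurent_linearIndependent` (IrrCore), descent of linear
relations from `K'` to `K` (coefficientwise, a `K`-basis of `K'`), Lagrange interpolation.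
-/

set_option autoImplicit false

noncomputable section

namespace Fermat.Agent.S18

open ModularCurve Polynomial

variable (N : ℕ) [NeZero N] {K K' : Type} [Field K] [Field K'] [Algebra K K'] (D : FieldAN N K')

/-- `K(j, y) ⊆ K((q))`, `y` the eta-quotient unit. -/
def KjyC (N : ℕ) (K : Type*) [Field K] : IntermediateField K (LaurentSeries K) :=
  IntermediateField.adjoin K {jqModC K, (Fermat.Agent.S28.yUnit K N : LaurentSeries K)}

include D in
/-- `1, y, …, y^(n-1)` are linearly independent over `K[j]`, `n = ψ(N)`. -/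
theorem yUnit_indep (a : Fin (psiIdx N) → K[X])
    (h : ∑ i, aeval (jqModC K) (a i) *
      (Fermat.Agent.S28.yUnit K N : LaurentSeries K) ^ (i : ℕ) = 0) : a = 0 :=
  RED2069.P2.yUnit_indep' N D a h

/-- `y` is a root of a monic polynomial of degree `n = ψ(N)` over `K[j]`, which becomes
`∏_u (X - Y_u)` over `K'((t))`. -/
theorem exists_charpoly_yUnit :
    ∃ P : K[X][X], P.Monic ∧ P.natDegree = psiIdx N ∧
      P.map ((toT N K K').comp (aeval (jqModC K) : K[X] →ₐ[K] LaurentSeries K).toRingHom) =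
        ∏ u : D.ι, (X - C (D.Y u : LaurentSeries K')) := by
  obtain ⟨P, hPm, hPdeg, -, hP⟩ := RED2069.P2.exists_charpoly N D (K := K)
  exact ⟨P, hPm, hPdeg.trans D.card_eq, hP⟩

include D in
/-- `j(q^d) ∈ K(j, y)` for `d ∣ N`. -/
theorem jd_mem_KjyC (d : ℕ) [NeZero d] (hd : d ∣ N) : qExpand K d (jqModC K) ∈ KjyC N K :=
  RED2069.P2.jd_mem_Ejy N D d hd

include D in
theorem full_le_KjyC : modularFunctionFieldFullC K N ≤ KjyC N K :=
  RED2069.P2.full_le_Ejy N D

/-- The conjugate embeddings `σ_u : K(j, y) → K'((t))`: `σ_u` extends `c ↦ c`, `j ↦ j(t^N)`,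
`y ↦ Y_u`, `j(q^d) ↦ J_{u,d}`, and `σ_{u₀}` is the comparison map `toT`. -/
theorem exists_conj_emb :
    ∃ σ : D.ι → (↥(KjyC N K) →+* LaurentSeries K'),
      (∀ u (f : ↥(KjyC N K)), (f : LaurentSeries K) ∈ KjC K →
        σ u f = toT N K K' (f : LaurentSeries K)) ∧
      (∀ u (f : ↥(KjyC N K)), (f : LaurentSeries K) = Fermat.Agent.S28.yUnit K N →
        σ u f = D.Y u) ∧
      (∀ u (d : ℕ) [NeZero d], d ∣ N → ∀ (f : ↥(KjyC N K)),
        (f : LaurentSeries K) = qExpand K d (jqModC K) → σ u f = D.J u d) ∧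
      (∀ f : ↥(KjyC N K), σ D.u₀ f = toT N K K' (f : LaurentSeries K)) :=
  RED2069.P2.exists_conj_emb' N D

end Fermat.Agent.S18
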