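import Fermat.Agent.S18.RED.P1
import Fermat.Agent.S18.RED.P2
import Fermat.Agent.S18.RED2089.DegSepMod

/-!
# S18 / RED, piece 3 (DEGSEP): degree and separability of `K(X₀(N))` over `K(j)`, `char K ∤ N`

`Ft_K := modularFunctionFieldFullC K N = K(j(q^d) : d ∣ N) ⊆ K((q))`.  From pieces 1, 2
(`D := exists_fieldAN N K hN`, `K' = AlgebraicClosure K`): `Ft_K ⊆ K(j, y)` has degree `≤ n = ψ(N)`
over `K(j)`; the `n` embeddings `σ_u` take pairwise distinct values `D.J u N` on `j(q^N)`
(`D.sep_J`), so the minimal polynomial of `j(q^N)` over `K(j)` has `≥ n` distinct roots.  Hence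
`K(j, j(q^N)) = Ft_K = K(j, y)`, of degree exactly `n`, separable.

Proofs by helper2089 (helper lemmas: `Fermat/Agent/S18/RED2089/DegSep.lean` (abstract field theory),
`Fermat/Agent/S18/RED2089/DegSepMod.lean`).
-/

set_option autoImplicit false

noncomputable section

namespace Fermat.Agent.S18

open ModularCurve Polynomial

variable (N : ℕ) [NeZero N] (K : Type) [Field K]

theorem KjC_le_full : KjC K ≤ modularFunctionFieldFullC K N := by
  rw [KjC, IntermediateField.adjoin_le_iff]
  rintro x rfl
  exact jqModC_mem_full K N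

theorem transcendental_jqModC : Transcendental K (jqModC K) := by
  have hord : (jqModC K).order < 0 := by
    have h : (jqModC K).coeff (-1 : ℤ) ≠ 0 := by
      rw [coeff_jqModC_neg_one]; exact one_ne_zero
    have := HahnSeries.order_le_of_coeff_ne_zero h
    omega
  rw [transcendental_iff_injective]
  exact Fermat.Agent.S28.IrrCore.aeval_injective_of_order_neg (jqModC K) hord

theorem yUnit_mem_full (hN : (N : K) ≠ 0) :
    (Fermat.Agent.S28.yUnit K N : LaurentSeries K) ∈ modularFunctionFieldFullC K N := by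
  obtain ⟨D⟩ := exists_fieldAN N K hN
  rw [RED2089.full_eq_KjyC_of N D]
  exact IntermediateField.subset_adjoin K _ (Set.mem_insert_of_mem _ (Set.mem_singleton _))

theorem full_eq_KjyC (hN : (N : K) ≠ 0) : modularFunctionFieldFullC K N = KjyC N K := by
  obtain ⟨D⟩ := exists_fieldAN N K hN
  exact RED2089.full_eq_KjyC_of N D

theorem full_eq_adjoin_pair (hN : (N : K) ≠ 0) :
    modularFunctionFieldFullC K N =
      IntermediateField.adjoin K {jqModC K, qExpand K N (jqModC K)} := by
  obtain ⟨D⟩ := exists_fieldAN N K hN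
  rw [RED2089.adjoin_pair_eq_KjyC N D]
  exact RED2089.full_eq_KjyC_of N D

/-- `[K(X₀(N)) : K(j)] = ψ(N)` whenever `char K ∤ N` (e.g. `K = ℚ`, `ℚ̄`, `𝔽_ℓ`, `𝔽̄_ℓ`). -/
theorem relfinrank_full (hN : (N : K) ≠ 0) :
    (KjC K).relfinrank (modularFunctionFieldFullC K N) = psiIdx N := by
  obtain ⟨D⟩ := exists_fieldAN N K hN
  rw [IntermediateField.relfinrank_eq_finrank_of_le (KjC_le_full N K)]
  exact RED2089.finrank_full_of N D (KjC_le_full N K)

theorem finiteDimensional_full (hN : (N : K) ≠ 0) :
    FiniteDimensional ↥(KjC K) ↥(IntermediateField.extendScalars (KjC_le_full N K)) := by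
  obtain ⟨D⟩ := exists_fieldAN N K hN
  exact RED2089.finiteDimensional_full_of N D (KjC_le_full N K)

/-- `K(X₀(N)) / K(j)` is separable whenever `char K ∤ N`. -/
theorem isSeparable_full (hN : (N : K) ≠ 0) :
    Algebra.IsSeparable ↥(KjC K) ↥(IntermediateField.extendScalars (KjC_le_full N K)) := by
  obtain ⟨D⟩ := exists_fieldAN N K hN
  exact RED2089.isSeparable_full_of N D (KjC_le_full N K)

/-- relative degree between two levels -/
theorem relfinrank_full_full {M : ℕ} [NeZero M] (hNM : N ∣ M) (hM : (M : K) ≠ 0) :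
    (modularFunctionFieldFullC K N).relfinrank (modularFunctionFieldFullC K M) * psiIdx N =
      psiIdx M := by
  have hN : (N : K) ≠ 0 := by
    obtain ⟨c, rfl⟩ := hNM
    intro h
    apply hM
    rw [Nat.cast_mul, h, zero_mul]
  rw [← relfinrank_full N K hN, ← relfinrank_full M K hM, mul_comm]
  exact IntermediateField.relfinrank_mul_relfinrank (KjC_le_full N K) (full_degeneracyC_le K hNM)

/-- The `ψ(N)` conjugate embeddings of `K(X₀(N))` into `K̄((t))`, `t = q^(1/N)`: they extend
`f ↦ f(t^N)` on `K(j)`, send `j(q^d)` to `D.J u d`, are pairwise distinct, and `σ_{u₀}` is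
`f ↦ f(t^N)`. -/
theorem exists_conj_emb_full (hN : (N : K) ≠ 0) (D : FieldAN N (AlgebraicClosure K)) :
    ∃ σ : D.ι → (↥(modularFunctionFieldFullC K N) →+* LaurentSeries (AlgebraicClosure K)),
      Function.Injective σ ∧
      (∀ u (f : ↥(modularFunctionFieldFullC K N)), (f : LaurentSeries K) ∈ KjC K →
        σ u f = toT N K (AlgebraicClosure K) (f : LaurentSeries K)) ∧
      (∀ u (d : ℕ) [NeZero d], d ∣ N → ∀ (f : ↥(modularFunctionFieldFullC K N)),
        (f : LaurentSeries K) = qExpand K d (jqModC K) → σ u f = D.J u d) ∧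
      (∀ f : ↥(modularFunctionFieldFullC K N),
        σ D.u₀ f = toT N K (AlgebraicClosure K) (f : LaurentSeries K)) := by
  obtain ⟨σ, hσ1, -, hσ3, hσ4⟩ := exists_conj_emb (K := K) N D
  have hle : modularFunctionFieldFullC K N ≤ KjyC N K := full_le_KjyC N D
  refine ⟨fun u => (σ u).comp (IntermediateField.inclusion hle).toRingHom, ?_, ?_, ?_, ?_⟩
  · intro u u' h
    by_contra hne
    apply D.sep_J u u' hne
    have h1 := congrArg (fun τ : ↥(modularFunctionFieldFullC K N) →+*
        LaurentSeries (AlgebraicClosure K) =>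
      τ ⟨qExpand K N (jqModC K), jqModCd_mem_full K N dvd_rfl⟩) h
    simp only [RingHom.comp_apply] at h1
    rw [hσ3 u N dvd_rfl _ rfl, hσ3 u' N dvd_rfl _ rfl] at h1
    exact h1
  · intro u f hf
    have h := hσ1 u (IntermediateField.inclusion hle f)
      (by rw [IntermediateField.coe_inclusion]; exact hf)
    rw [IntermediateField.coe_inclusion] at h
    exact h
  · intro u d _ hd f hf
    exact hσ3 u d hd (IntermediateField.inclusion hle f)
      ((IntermediateField.coe_inclusion hle f).trans hf)
  · intro f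
    have h := hσ4 (IntermediateField.inclusion hle f)
    rw [IntermediateField.coe_inclusion] at h
    exact h

end Fermat.Agent.S18
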