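import Fermat.Agent.S18.RED.P0
import Fermat.Agent.S18.RED.P3
import Fermat.Agent.S18.RED2689.P4

/-!
# S18 / RED, piece 4 (REDFT): the residue field of the Gauss ring is `𝔽_ℓ(X₀(N))`

`redO_mem_full`: `exists_red_rel` (piece 0) + `yUnit_mem_full (ZMod ℓ)` (piece 3) + transcendence of
`j`.  `redO_surjective_full`: the image of `redO` is a subfield (`inv_mem_OQ`) containing the
`j(q^d)`.  `jd_mem_chartAlgFin`: `j(q^d)` is integral over `ℚ[j]` (`FieldAN.charpoly_J` over `ℚ̄`,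
then `ℚ̄[j]` is integral over `ℚ[j]`), so `ℓ^m j(q^d) ∈ chartAlgFin`; saturation
(`mem_chartAlgFin_of_mul`) removes `ℓ^m`.

Proofs (helper2689): `Fermat/Agent/S18/RED2689/P4.lean` (same statements in the namespace
`Fermat.Agent.S18.RED2689`, on the stubs of pieces 0, 1, 3).
-/

set_option autoImplicit false

noncomputable section

namespace Fermat.Agent.S18

open ModularCurve ModularCurve.IgusaScheme Polynomial

variable (N : ℕ) [NeZero N] (ℓ : ℕ) [Fact ℓ.Prime]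

/-- reductions of elements of the Gauss ring of `F_N` lie in `𝔽_ℓ(j(q^d) : d ∣ N)` -/
theorem redO_mem_full (hℓN : ¬ ℓ ∣ N) (z : OQ N ℓ) :
    redO N ℓ z ∈ modularFunctionFieldFullC (ZMod ℓ) N :=
  RED2689.redO_mem_full N ℓ hℓN z

/-- the residue field of the Gauss ring is all of `𝔽_ℓ(j(q^d) : d ∣ N)` -/
theorem redO_surjective_full (w : LaurentSeries (ZMod ℓ))
    (hw : w ∈ modularFunctionFieldFullC (ZMod ℓ) N) : ∃ z : OQ N ℓ, redO N ℓ z = w :=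
  RED2689.redO_surjective_full N ℓ w hw

theorem jd_mem_OQ (d : ℕ) [NeZero d] (hd : d ∣ N) :
    (⟨qExpand ℚ d (jqModC ℚ), jqModCd_mem_full ℚ N hd⟩ : ↥(modularFunctionFieldFull N)) ∈
      OQ N ℓ :=
  RED2689.jd_mem_OQ N ℓ d hd

theorem redO_jd (d : ℕ) [NeZero d] (hd : d ∣ N) :
    redO N ℓ ⟨⟨qExpand ℚ d (jqModC ℚ), jqModCd_mem_full ℚ N hd⟩, jd_mem_OQ N ℓ d hd⟩ =
      qExpand (ZMod ℓ) d (jqModC (ZMod ℓ)) :=
  RED2689.redO_jd N ℓ d hd

/-- `j(q^d)` is integral over `ℤ_(ℓ)[j]` -/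
theorem jd_mem_chartAlgFin (hℓN : ¬ ℓ ∣ N) (d : ℕ) [NeZero d] (hd : d ∣ N) :
    (⟨qExpand ℚ d (jqModC ℚ), jqModCd_mem_full ℚ N hd⟩ : ↥(modularFunctionFieldFull N)) ∈
      chartAlgFin N ℓ :=
  RED2689.jd_mem_chartAlgFin N ℓ hℓN d hd

/-- the eta-quotient unit lies in `F_N` and is integral over `ℤ_(ℓ)[j]` -/
theorem exists_yUnit_chartAlgFin (hℓN : ¬ ℓ ∣ N) :
    ∃ x : chartAlgFin N ℓ, ((x : ↥(modularFunctionFieldFull N)) : LaurentSeries ℚ) =
      (Fermat.Agent.S28.yUnit ℚ N : LaurentSeries ℚ) :=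
  RED2689.exists_yUnit_chartAlgFin N ℓ hℓN

/-- reductions of the chart `j ≠ ∞` are integral over `𝔽_ℓ[j]` -/
theorem redFin_isIntegral (x : chartAlgFin N ℓ) :
    IsIntegral (Algebra.adjoin (ZMod ℓ) {jqModC (ZMod ℓ)}) (redFin N ℓ x) :=
  RED2689.redFin_isIntegral N ℓ x

/-- reductions of the chart `j ≠ 0` are integral over `𝔽_ℓ[1/j]` -/
theorem redInf_isIntegral (x : chartAlgInf N ℓ) :
    IsIntegral (Algebra.adjoin (ZMod ℓ) {(jqModC (ZMod ℓ))⁻¹}) (redInf N ℓ x) :=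
  RED2689.redInf_isIntegral N ℓ x

end Fermat.Agent.S18
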