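import Fermat.Agent.S18.RED.P4
import Fermat.Agent.S18.RED5669.Gauss

/-!
# S18 / RED, piece 5 (GAUSS): the Gauss valuation of `ℚ̄(X₀(N))` over a valuation ring `A ∣ ℓ`

Generic part (`L`, `A` arbitrary): calculus of `IsRedOf`.
Modular part: `A ⊆ ℚ̄` a valuation ring over `ℓ ∤ N`, `k = A/m`, `Fb = modularFunctionFieldBar N`,
`Ft = modularFunctionFieldFullC k N`.

Proof of the normal form.  `f = a/b`, `a, b` polynomials in the `j(q^d)` with coefficients in `ℚ̄`,
so `a = Σ λ_i m_i` with `m_i ∈ ℤ((q)) ∩ F_N`.  SATBASIS lemma (DVR `ℤ_(ℓ)`, induction, the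
determinant of a minor bounds the number of steps): there are `w_1..w_s ∈ ℤ_(ℓ)((q))` in the `ℚ`-span
of the `m_i`, with `𝔽_ℓ`-linearly independent reductions, such that every `m_i` is a
`ℤ_(ℓ)`-combination of the `w_j`.  Then `a = Σ λ'_j w_j`; divide by the `λ'_j` of largest valuation:
`a = c · a₁`, `a₁ = Σ μ_j w_j`, `μ_j ∈ A`, one `μ_j = 1`; the reductions of the `w_j` stay linearly
independent over `k` (a minor), lie in `𝔽_ℓ(X₀(N))` (`redO_mem_full`), so `ā₁ ≠ 0`, `ā₁ ∈ Ft`.
-/

set_option autoImplicit false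

noncomputable section

namespace Fermat.Agent.S18

open ModularCurve AlgebraicCurve

section Generic

variable {L : Type*} [Field L] (A : ValuationSubring L)

theorem isRedOf_coeffMap (y : LaurentSeries A) :
    IsRedOf A (coeffMap A.subtype y) (coeffMap (IsLocalRing.residue A) y) := by
  exact RED5669.isRedOf_coeffMap A y

variable {A}

theorem IsRedOf.unique {x : LaurentSeries L} {w w' : LaurentSeries (IsLocalRing.ResidueField A)}
    (h : IsRedOf A x w) (h' : IsRedOf A x w') : w = w' := by
  exact RED5669.IsRedOf.unique' h h'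

theorem IsRedOf.add {x x' : LaurentSeries L} {w w' : LaurentSeries (IsLocalRing.ResidueField A)}
    (h : IsRedOf A x w) (h' : IsRedOf A x' w') : IsRedOf A (x + x') (w + w') := by
  exact RED5669.IsRedOf.add' h h'

theorem IsRedOf.mul {x x' : LaurentSeries L} {w w' : LaurentSeries (IsLocalRing.ResidueField A)}
    (h : IsRedOf A x w) (h' : IsRedOf A x' w') : IsRedOf A (x * x') (w * w') := by
  exact RED5669.IsRedOf.mul' h h'

theorem IsRedOf.neg {x : LaurentSeries L} {w : LaurentSeries (IsLocalRing.ResidueField A)}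
    (h : IsRedOf A x w) : IsRedOf A (-x) (-w) := by
  exact RED5669.IsRedOf.neg' h

theorem IsRedOf.inv {x : LaurentSeries L} {w : LaurentSeries (IsLocalRing.ResidueField A)}
    (h : IsRedOf A x w) (hw : w ≠ 0) : IsRedOf A x⁻¹ w⁻¹ := by
  exact RED5669.IsRedOf.inv' h hw

/-- the Gauss valuation is well defined: two elements with nonzero reduction differing by a
constant `c` force `c ∈ Aˣ` -/
theorem IsRedOf.const_mem {c : L} {x : LaurentSeries L}
    {w w' : LaurentSeries (IsLocalRing.ResidueField A)} (h : IsRedOf A x w) (hw : w ≠ 0)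
    (h' : IsRedOf A (HahnSeries.C c * x) w') : c ∈ A := by
  exact RED5669.IsRedOf.const_mem' h hw h'

/-- a series with zero reduction which is a constant multiple of a series with nonzero reduction:
the constant lies in the maximal ideal -/
theorem IsRedOf.const_mem_maximalIdeal {c : L} {x : LaurentSeries L}
    {w : LaurentSeries (IsLocalRing.ResidueField A)} (h : IsRedOf A x w) (hw : w ≠ 0)
    (h' : IsRedOf A (HahnSeries.C c * x) 0) :
    ∃ hc : c ∈ A, (⟨c, hc⟩ : A) ∈ IsLocalRing.maximalIdeal A := by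
  exact RED5669.IsRedOf.const_mem_maximalIdeal' h hw h'

end Generic

section Modular

variable (N : ℕ) [NeZero N] {ℓ : ℕ} [Fact ℓ.Prime]
  (A : ValuationSubring (AlgebraicClosure ℚ))

/-- **Residue field.**  The Gauss reduction of an element of `ℚ̄(X₀(N))` lies in `k(X₀(N))`. -/
theorem isRedOf_mem_full (hℓN : ¬ ℓ ∣ N) (hA : A.LiesOverPrime ℓ)
    {x : LaurentSeries (AlgebraicClosure ℚ)} {w : LaurentSeries (IsLocalRing.ResidueField A)}
    (h : IsRedOf A x w) (hx : x ∈ modularFunctionFieldBar N) :
    w ∈ modularFunctionFieldFullC (IsLocalRing.ResidueField A) N := by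
  exact RED5669.isRedOf_mem_full N A hℓN hA h hx

/-- **Admissibility is automatic**: `Adm A Fb Ft = { y ∈ A((q)) : y ∈ Fb }`. -/
theorem adm_of_gen (hℓN : ¬ ℓ ∣ N) (hA : A.LiesOverPrime ℓ) (y : LaurentSeries A)
    (hy : coeffMap A.subtype y ∈ modularFunctionFieldBar N) :
    coeffMap (IsLocalRing.residue A) y ∈
      modularFunctionFieldFullC (IsLocalRing.ResidueField A) N := by
  exact RED5669.adm_of_gen N A hℓN hA y hy

/-- **Gauss normal form** (hypothesis `hGauss` of `core`). -/
theorem gauss_normal_form (hℓN : ¬ ℓ ∣ N) (hA : A.LiesOverPrime ℓ)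
    (f : ↥(modularFunctionFieldBar N)) (hf : f ≠ 0) :
    ∃ (c : AlgebraicClosure ℚ)
      (y₁ y₂ : Adm A (modularFunctionFieldBar N)
        (modularFunctionFieldFullC (IsLocalRing.ResidueField A) N)), c ≠ 0 ∧
      redOf A (modularFunctionFieldBar N)
        (modularFunctionFieldFullC (IsLocalRing.ResidueField A) N) y₁ ≠ 0 ∧
      redOf A (modularFunctionFieldBar N)
        (modularFunctionFieldFullC (IsLocalRing.ResidueField A) N) y₂ ≠ 0 ∧
      f * genOf A (modularFunctionFieldBar N)
          (modularFunctionFieldFullC (IsLocalRing.ResidueField A) N) y₂ =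
        algebraMap (AlgebraicClosure ℚ) ↥(modularFunctionFieldBar N) c *
          genOf A (modularFunctionFieldBar N)
            (modularFunctionFieldFullC (IsLocalRing.ResidueField A) N) y₁ := by
  exact RED5669.gauss_normal_form N A hℓN hA f hf

/-- Gauss normal form, relational version: every nonzero `f` is a constant times an element with
nonzero Gauss reduction. -/
theorem exists_const_mul_isRedOf (hℓN : ¬ ℓ ∣ N) (hA : A.LiesOverPrime ℓ)
    (f : LaurentSeries (AlgebraicClosure ℚ)) (hf : f ∈ modularFunctionFieldBar N) (hf0 : f ≠ 0) :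
    ∃ (c : AlgebraicClosure ℚ) (w : LaurentSeries (IsLocalRing.ResidueField A)), c ≠ 0 ∧ w ≠ 0 ∧
      IsRedOf A (HahnSeries.C c * f) w := by
  exact RED5669.exists_const_mul_isRedOf N A hℓN hA f hf hf0

/-- **Surjectivity**: every element of `k(X₀(N))` is the Gauss reduction of an element of
`ℚ̄(X₀(N))`. -/
theorem exists_isRedOf_of_mem_full (w : LaurentSeries (IsLocalRing.ResidueField A))
    (hw : w ∈ modularFunctionFieldFullC (IsLocalRing.ResidueField A) N) :
    ∃ x : LaurentSeries (AlgebraicClosure ℚ), x ∈ modularFunctionFieldBar N ∧ IsRedOf A x w := by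
  exact RED5669.exists_isRedOf_of_mem_full N A w hw

end Modular

end Fermat.Agent.S18
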