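import Fermat.Agent.S18.RED.P5
import Fermat.Agent.S18.RED3869.NormMain

/-!
# S18 / RED, piece 6 (NORM): the Gauss reduction commutes with norms between two levels

`N ∣ M`, `ℓ ∤ M`.  `d := [ℚ̄(X₀(M)) : ℚ̄(X₀(N))] = ψ(M)/ψ(N) = [k(X₀(M)) : k(X₀(N))]`
(`relfinrank_full_full` for `K = ℚ̄` and `K = k`).  Lift a basis `w̄_i` of `k(X₀(M))/k(X₀(N))` to
`b_i` (`exists_isRedOf_of_mem_full`); the `b_i` are linearly independent over `ℚ̄(X₀(N))` (normal
form + reduction), hence a basis; the matrix of multiplication by `x` in this basis has entries with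
Gauss reduction = the matrix of `w` (entry of largest valuation argument); norm = determinant.
-/

set_option autoImplicit false

noncomputable section

namespace Fermat.Agent.S18

open ModularCurve AlgebraicCurve

theorem modularFunctionFieldBar_mono {N M : ℕ} [NeZero N] [NeZero M] (h : N ∣ M) :
    modularFunctionFieldBar N ≤ modularFunctionFieldBar M :=
  RED3869.bar_mono h

/-- **Norm compatibility.** -/
theorem isRedOf_norm {N M : ℕ} [NeZero N] [NeZero M] {ℓ : ℕ} [Fact ℓ.Prime]
    (A : ValuationSubring (AlgebraicClosure ℚ)) (hNM : N ∣ M) (hℓM : ¬ ℓ ∣ M)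
    (hA : A.LiesOverPrime ℓ)
    (x : ↥(IntermediateField.extendScalars (modularFunctionFieldBar_mono hNM)))
    (w : ↥(IntermediateField.extendScalars
      (full_degeneracyC_le (IsLocalRing.ResidueField A) hNM)))
    (h : IsRedOf A (x : LaurentSeries (AlgebraicClosure ℚ))
      (w : LaurentSeries (IsLocalRing.ResidueField A))) :
    IsRedOf A
      ((Algebra.norm ↥(modularFunctionFieldBar N) x : ↥(modularFunctionFieldBar N)) :
        LaurentSeries (AlgebraicClosure ℚ))
      ((Algebra.norm ↥(modularFunctionFieldFullC (IsLocalRing.ResidueField A) N) w :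
        ↥(modularFunctionFieldFullC (IsLocalRing.ResidueField A) N)) :
        LaurentSeries (IsLocalRing.ResidueField A)) := by
  have hℓN : ¬ ℓ ∣ N := fun h' => hℓM (h'.trans hNM)
  exact RED3869.isRedOf_norm_generic (modularFunctionFieldBar_mono hNM)
    (full_degeneracyC_le (IsLocalRing.ResidueField A) hNM)
    (fun _ _ hx hred => isRedOf_mem_full N A hℓN hA hred hx)
    (fun f hf hf0 => exists_const_mul_isRedOf N A hℓN hA f hf hf0)
    (fun w' hw' => exists_isRedOf_of_mem_full M A w' hw')
    (RED3869.finrank_bar_eq A hNM hℓM hA _) (RED3869.finrank_full_ne_zero A hNM hℓM hA) x w h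

/-- Trace compatibility (same proof). -/
theorem isRedOf_trace {N M : ℕ} [NeZero N] [NeZero M] {ℓ : ℕ} [Fact ℓ.Prime]
    (A : ValuationSubring (AlgebraicClosure ℚ)) (hNM : N ∣ M) (hℓM : ¬ ℓ ∣ M)
    (hA : A.LiesOverPrime ℓ)
    (x : ↥(IntermediateField.extendScalars (modularFunctionFieldBar_mono hNM)))
    (w : ↥(IntermediateField.extendScalars
      (full_degeneracyC_le (IsLocalRing.ResidueField A) hNM)))
    (h : IsRedOf A (x : LaurentSeries (AlgebraicClosure ℚ))
      (w : LaurentSeries (IsLocalRing.ResidueField A))) :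
    IsRedOf A
      ((Algebra.trace ↥(modularFunctionFieldBar N) _ x : ↥(modularFunctionFieldBar N)) :
        LaurentSeries (AlgebraicClosure ℚ))
      ((Algebra.trace ↥(modularFunctionFieldFullC (IsLocalRing.ResidueField A) N) _ w :
        ↥(modularFunctionFieldFullC (IsLocalRing.ResidueField A) N)) :
        LaurentSeries (IsLocalRing.ResidueField A)) := by
  have hℓN : ¬ ℓ ∣ N := fun h' => hℓM (h'.trans hNM)
  exact RED3869.isRedOf_trace_generic (modularFunctionFieldBar_mono hNM)
    (full_degeneracyC_le (IsLocalRing.ResidueField A) hNM)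
    (fun _ _ hx hred => isRedOf_mem_full N A hℓN hA hred hx)
    (fun f hf hf0 => exists_const_mul_isRedOf N A hℓN hA f hf hf0)
    (fun w' hw' => exists_isRedOf_of_mem_full M A w' hw')
    (RED3869.finrank_bar_eq A hNM hℓM hA _) (RED3869.finrank_full_ne_zero A hNM hℓM hA) x w h

end Fermat.Agent.S18
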